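import Fermat.Agent.LT.T3.Spec

/-!
# Row LT, tower T3, sub-leaf T3.05 `UnfoldC` (helper59)

Unfolding (Tate's thesis, Lemma 4.2.4 (i)): for a fundamental domain `D` of `K` in `𝔸_K`, a
standard character `ψ` and an integrable `φ`, the Fourier coefficients of the periodisation of
`φ` are the values of the Fourier transform of `φ` on `K`:

    ∫_D (∑_ξ φ(x + ξ)) ψ(x η) dμ(x) = ∫ φ(x) ψ(x η) dμ(x).

Proof: `IsAddFundamentalDomain.integral_eq_tsum''` + `integral_tsum` (Tonelli via
`lintegral_eq_tsum''`) + `ψ((x + ξ) η) = ψ(x η)` (`ψ` is trivial on `K`).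
Mathlib + `LT/T3/Spec.lean` only.  The normal summability hypothesis is not needed.
-/

set_option autoImplicit false
set_option linter.style.haveILetI false

open IsDedekindDomain NumberField MeasureTheory
open Fermat.Agent.LT.H556.A0 Fermat.Agent.LT.T3

noncomputable section

namespace Fermat.Agent.LT.T3.H59

variable (K : Type) [Field K] [NumberField K]

/-- A number field is countable. -/
theorem countable_numberField59 : Countable K := by
  have e := (Module.finBasis ℚ K).equivFun
  exact e.toEquiv.countable_iff.2 inferInstance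

/-- The diagonal embedding is injective. -/
theorem emb_injective59 : Function.Injective (emb K) :=
  NumberField.AdeleRing.algebraMap_injective (𝓞 K) K

/-- The lattice `K ⊂ 𝔸_K` as an additive subgroup. -/
abbrev Lat59 : AddSubgroup (Adl K) := (algebraMap K (Adl K)).toAddMonoidHom.range

/-- `K ≃ K ⊂ 𝔸_K`. -/
def latEquiv59 : K ≃ Lat59 K :=
  (AddMonoidHom.ofInjective (f := (algebraMap K (Adl K)).toAddMonoidHom)
    (emb_injective59 K)).toEquiv

theorem latEquiv59_coe (ξ : K) : ((latEquiv59 K ξ : Lat59 K) : Adl K) = emb K ξ := rfl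

theorem countable_lat59 : Countable (Lat59 K) :=
  haveI := countable_numberField59 K
  (latEquiv59 K).symm.countable_iff.2 inferInstance

/-- **T3.05**: unfolding. -/
theorem unfoldC59 : UnfoldC K := by
  letI : MeasurableSpace (Adl K) := borel (Adl K)
  haveI : BorelSpace (Adl K) := ⟨rfl⟩
  haveI := countable_numberField59 K
  haveI := countable_lat59 K
  intro ψ hψ μ hμ D hD φ hφc hφi _ η
  -- the integrand
  set h : Adl K → ℂ := fun x => φ x * ((ψ (x * emb K η) : Circle) : ℂ) with hh
  have hψc : Continuous fun x : Adl K => ((ψ (x * emb K η) : Circle) : ℂ) :=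
    continuous_subtype_val.comp (hψ.cont.comp (continuous_id.mul continuous_const))
  have hhc : Continuous h := hφc.mul hψc
  have hnorm : ∀ x, ‖h x‖ = ‖φ x‖ := by
    intro x
    rw [hh]
    show ‖φ x * ((ψ (x * emb K η) : Circle) : ℂ)‖ = ‖φ x‖
    rw [norm_mul, Circle.norm_coe, mul_one]
  have hhi : Integrable h μ := by
    refine ⟨hhc.aestronglyMeasurable, ?_⟩
    have := hφi.hasFiniteIntegral
    unfold HasFiniteIntegral at this ⊢
    refine lt_of_le_of_lt (le_of_eq ?_) this
    refine lintegral_congr fun x => ?_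
    rw [← ofReal_norm, ← ofReal_norm, hnorm]
  -- periodicity of the character factor
  have hper : ∀ (ξ : K) (x : Adl K),
      h (x + emb K ξ) = φ (x + emb K ξ) * ((ψ (x * emb K η) : Circle) : ℂ) := by
    intro ξ x
    have h1 : (x + emb K ξ) * emb K η = x * emb K η + emb K (ξ * η) := by
      rw [add_mul, map_mul]
    show φ (x + emb K ξ) * ((ψ ((x + emb K ξ) * emb K η) : Circle) : ℂ) = _
    rw [h1, AddChar.map_add_eq_mul, hψ.triv, mul_one]
  -- unfold the total integral
  have hunf := hD.integral_eq_tsum'' h hhi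
  have hsum : ∑' g : Lat59 K, ∫ x in D, h (g +ᵥ x) ∂μ
      = ∑' ξ : K, ∫ x in D, φ (x + emb K ξ) * ((ψ (x * emb K η) : Circle) : ℂ) ∂μ := by
    rw [← (latEquiv59 K).tsum_eq]
    refine tsum_congr fun ξ => ?_
    refine integral_congr_ae (Filter.Eventually.of_forall fun x => ?_)
    show h ((latEquiv59 K ξ : Adl K) + x) = _
    rw [latEquiv59_coe, add_comm, hper]
  -- Tonelli
  have hfin : ∑' ξ : K, ∫⁻ x, ‖φ (x + emb K ξ) * ((ψ (x * emb K η) : Circle) : ℂ)‖ₑ
      ∂(μ.restrict D) ≠ ⊤ := by
    have h1 := hD.lintegral_eq_tsum'' (fun x => ‖φ x‖ₑ)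
    have h2 : ∑' g : Lat59 K, ∫⁻ x in D, ‖φ (g +ᵥ x)‖ₑ ∂μ
        = ∑' ξ : K, ∫⁻ x, ‖φ (x + emb K ξ) * ((ψ (x * emb K η) : Circle) : ℂ)‖ₑ
            ∂(μ.restrict D) := by
      rw [← (latEquiv59 K).tsum_eq]
      refine tsum_congr fun ξ => ?_
      refine lintegral_congr fun x => ?_
      show ‖φ ((latEquiv59 K ξ : Adl K) + x)‖ₑ = _
      rw [latEquiv59_coe, add_comm, ← hper, ← ofReal_norm, ← ofReal_norm,
        hnorm]
    rw [← h2, ← h1]
    exact hφi.hasFiniteIntegral.ne
  have hmeas : ∀ ξ : K, AEStronglyMeasurable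
      (fun x => φ (x + emb K ξ) * ((ψ (x * emb K η) : Circle) : ℂ)) (μ.restrict D) := by
    intro ξ
    exact ((hφc.comp (continuous_id.add continuous_const)).mul hψc).aestronglyMeasurable
  have hton := integral_tsum hmeas hfin
  -- conclusion
  show ∫ x in D, (∑' ξ : K, φ (x + emb K ξ)) * ((ψ (x * emb K η) : Circle) : ℂ) ∂μ
      = fourierAd K ψ μ φ (emb K η)
  have hL : ∀ x : Adl K, (∑' ξ : K, φ (x + emb K ξ)) * ((ψ (x * emb K η) : Circle) : ℂ)
      = ∑' ξ : K, φ (x + emb K ξ) * ((ψ (x * emb K η) : Circle) : ℂ) :=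
    fun x => tsum_mul_right.symm
  simp only [hL]
  rw [hton, ← hsum, ← hunf]
  rfl

end Fermat.Agent.LT.T3.H59

end
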